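import Mathlib.NumberTheory.FLT.Basic
import Mathlib.NumberTheory.FLT.Four
import Mathlib.NumberTheory.FLT.Three
import Fermat.Prelude.Def_FLTPrelim_FreyPackage

/-!
Wiring for the root statement S01: Fermat's Last Theorem follows from
* the statement of S02 (a counterexample for a prime `p ≥ 5` gives a Frey package), and
* the statement of S03 (there is no Frey package),
together with Mathlib's `n = 3`, `n = 4` cases and the reduction to odd primes.

Both inputs are taken as *hypotheses* here, so this file is independent of S02/S03.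
-/

set_option autoImplicit false

namespace Fermat.Agent.S01

/-- FLT for all exponents `n ≥ 3`, from FLT for every prime exponent `p ≥ 5` over `ℤ`. -/
theorem flt_of_primes_ge_five
    (h5 : ∀ (a b c : ℤ), a ≠ 0 → b ≠ 0 → c ≠ 0 → ∀ p : ℕ, p.Prime → 5 ≤ p →
      a ^ p + b ^ p ≠ c ^ p)
    (n : ℕ) (hn : 3 ≤ n) (a b c : ℕ) (ha : 0 < a) (hb : 0 < b) (hc : 0 < c) :
    a ^ n + b ^ n ≠ c ^ n := by
  have hFLT : FermatLastTheorem := by
    apply FermatLastTheorem.of_odd_primes
    intro p hp hodd
    rcases lt_or_ge p 5 with hlt | hge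
    · have h2 : 2 ≤ p := hp.two_le
      have hp3 : p = 3 := by
        interval_cases p
        · exact absurd hodd (by decide)
        · rfl
        · exact absurd hp (by decide)
      subst hp3
      exact fermatLastTheoremThree
    · rw [fermatLastTheoremFor_iff_int]
      intro a b c ha hb hc
      exact h5 a b c ha hb hc p hp hge
  exact hFLT n (by omega) a b c ha.ne' hb.ne' hc.ne'

/-- The root wiring: S01 from the statements of S02 and S03. -/
theorem flt_of_frey
    (hS02 : ∀ (a b c : ℤ), a ≠ 0 → b ≠ 0 → c ≠ 0 → ∀ p : ℕ, p.Prime → 5 ≤ p →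
      a ^ p + b ^ p = c ^ p → Nonempty FreyPackage)
    (hS03 : FreyPackage → False)
    (n : ℕ) (hn : 3 ≤ n) (a b c : ℕ) (ha : 0 < a) (hb : 0 < b) (hc : 0 < c) :
    a ^ n + b ^ n ≠ c ^ n :=
  flt_of_primes_ge_five
    (fun a b c ha hb hc p hp hp5 H => (hS02 a b c ha hb hc p hp hp5 H).elim hS03)
    n hn a b c ha hb hc

end Fermat.Agent.S01
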